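import Mathlib

/-!
# S18 / d2 : Kummer descent along an extension of degree prime to `m`

`K` algebraically closed, `E ≤ F` intermediate fields of `Ω/K` with `[F : E]` finite and prime to
`m`.  If `y ∈ F` and `y ^ m ∈ E` then `y ∈ E`.
-/

set_option autoImplicit false

namespace Fermat.Agent.S18.H876

/-- Over an algebraically closed base field every root of unity of an extension field lies in
the base field. -/
theorem mem_range_algebraMap_of_pow_eq_one {K Ω : Type*} [Field K] [Field Ω] [Algebra K Ω]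
    [IsAlgClosed K] {ζ : Ω} {m : ℕ} (hm : 0 < m) (h : ζ ^ m = 1) :
    ζ ∈ Set.range (algebraMap K Ω) := by
  have hint : IsIntegral K ζ := by
    refine ⟨Polynomial.X ^ m - 1, Polynomial.monic_X_pow_sub_C (1 : K) hm.ne', ?_⟩
    simp [h]
  have hirr := minpoly.irreducible hint
  have hdeg := IsAlgClosed.degree_eq_one_of_irreducible K hirr
  have := (minpoly.degree_eq_one_iff (A := K) (x := ζ)).1 hdeg
  simpa using this

/-- **Kummer descent.**  -/
theorem mem_of_pow_mem_of_coprime {K Ω : Type*} [Field K] [Field Ω] [Algebra K Ω]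
    [IsAlgClosed K] (E F : IntermediateField K Ω) (hEF : E ≤ F)
    [FiniteDimensional E (IntermediateField.extendScalars hEF)]
    (m : ℕ) (hm : 0 < m)
    (hcop : (Module.finrank E (IntermediateField.extendScalars hEF)).Coprime m)
    (y : Ω) (hy : y ∈ F) (hym : y ^ m ∈ E) : y ∈ E := by
  classical
  rcases eq_or_ne y 0 with rfl | hy0
  · exact E.zero_mem
  set F' : IntermediateField E Ω := IntermediateField.extendScalars hEF with hF'
  set d : ℕ := Module.finrank E F' with hd
  have hyF' : y ∈ F' := (IntermediateField.mem_extendScalars hEF).2 hy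
  set y' : F' := ⟨y, hyF'⟩ with hy'
  set n : E := Algebra.norm E y' with hn
  -- norm of `y' ^ m`
  have h1 : y' ^ m = algebraMap E F' ⟨y ^ m, hym⟩ := by
    apply Subtype.ext
    simp [hy']
  haveI : Module.Free E F' := Module.Free.of_divisionRing E F'
  have h2 : n ^ m = (⟨y ^ m, hym⟩ : E) ^ d := by
    rw [hn, ← map_pow, h1, Algebra.norm_algebraMap]
  have h3 : (n : Ω) ^ m = (y ^ d) ^ m := by
    have := congrArg (fun e : E => (e : Ω)) h2
    simp only [SubmonoidClass.coe_pow] at this
    rw [this, ← pow_mul, ← pow_mul, mul_comm]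
  -- the quotient is a root of unity, hence constant
  have hyd0 : y ^ d ≠ 0 := pow_ne_zero _ hy0
  have hζ : ((n : Ω) / y ^ d) ^ m = 1 := by
    rw [div_pow, h3, div_self (pow_ne_zero _ hyd0)]
  obtain ⟨c, hc⟩ := mem_range_algebraMap_of_pow_eq_one (K := K) hm hζ
  have hcE : (n : Ω) / y ^ d ∈ E := by
    rw [← hc]
    exact E.algebraMap_mem c
  have hn0 : (n : Ω) ≠ 0 := by
    intro h0
    rw [h0, zero_div] at hζ
    rw [zero_pow hm.ne'] at hζ
    exact zero_ne_one hζ
  have hydE : y ^ d ∈ E := by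
    have : y ^ d = (n : Ω) / ((n : Ω) / y ^ d) := by
      field_simp
    rw [this]
    exact E.div_mem n.2 hcE
  -- Bezout
  have hbez : (d : ℤ) * Nat.gcdA d m + (m : ℤ) * Nat.gcdB d m = 1 := by
    have := Nat.gcd_eq_gcd_ab d m
    rw [Nat.Coprime.gcd_eq_one hcop] at this
    exact_mod_cast this.symm
  have hy1 : y = (y ^ d) ^ (Nat.gcdA d m) * (y ^ m) ^ (Nat.gcdB d m) := by
    rw [← zpow_natCast y d, ← zpow_natCast y m, ← zpow_mul, ← zpow_mul, ← zpow_add₀ hy0, hbez,
      zpow_one]
  rw [hy1]
  exact E.mul_mem (zpow_mem hydE _) (zpow_mem hym _)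

/-- **Kummer descent, tower form.**  `K ⊆ E ⊆ F` fields, `K` algebraically closed, `[F : E]`
finite and prime to `m`.  If `y ∈ F` and `y ^ m` comes from `E`, then `y` comes from `E`. -/
theorem exists_algebraMap_eq_of_pow_eq {K E F : Type*} [Field K] [Field E] [Field F]
    [Algebra K E] [Algebra E F] [Algebra K F] [IsScalarTower K E F]
    [IsAlgClosed K] [FiniteDimensional E F]
    (m : ℕ) (hm : 0 < m) (hcop : (Module.finrank E F).Coprime m)
    (y : F) (e : E) (hym : y ^ m = algebraMap E F e) : ∃ x : E, algebraMap E F x = y := by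
  classical
  rcases eq_or_ne y 0 with rfl | hy0
  · exact ⟨0, map_zero _⟩
  set d : ℕ := Module.finrank E F with hd
  set n : E := Algebra.norm E y with hn
  haveI : Module.Free E F := Module.Free.of_divisionRing E F
  have h2 : n ^ m = e ^ d := by
    rw [hn, ← map_pow, hym, Algebra.norm_algebraMap]
  have h3 : (algebraMap E F n) ^ m = (y ^ d) ^ m := by
    rw [← map_pow, h2, map_pow, ← hym, ← pow_mul, ← pow_mul, mul_comm]
  have hyd0 : y ^ d ≠ 0 := pow_ne_zero _ hy0
  have hζ : (algebraMap E F n / y ^ d) ^ m = 1 := by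
    rw [div_pow, h3, div_self (pow_ne_zero _ hyd0)]
  obtain ⟨c, hc⟩ := mem_range_algebraMap_of_pow_eq_one (K := K) hm hζ
  have hn0 : algebraMap E F n ≠ 0 := by
    intro h0
    rw [h0, zero_div, zero_pow hm.ne'] at hζ
    exact zero_ne_one hζ
  have hc0 : algebraMap K E c ≠ 0 := by
    intro h0
    have : algebraMap K F c = 0 := by
      rw [IsScalarTower.algebraMap_apply K E F, h0, map_zero]
    rw [this] at hc
    exact (div_ne_zero hn0 hyd0) hc.symm
  -- `y ^ d` comes from `E`
  have hydE : algebraMap E F (n / algebraMap K E c) = y ^ d := by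
    rw [map_div₀, ← IsScalarTower.algebraMap_apply K E F, hc]
    field_simp
  -- Bezout
  have hbez : (d : ℤ) * Nat.gcdA d m + (m : ℤ) * Nat.gcdB d m = 1 := by
    have := Nat.gcd_eq_gcd_ab d m
    rw [Nat.Coprime.gcd_eq_one hcop] at this
    exact_mod_cast this.symm
  refine ⟨(n / algebraMap K E c) ^ (Nat.gcdA d m) * e ^ (Nat.gcdB d m), ?_⟩
  rw [map_mul, map_zpow₀, map_zpow₀, hydE, ← hym, ← zpow_natCast y d, ← zpow_natCast y m,
    ← zpow_mul, ← zpow_mul, ← zpow_add₀ hy0, hbez, zpow_one]

end Fermat.Agent.S18.H876
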