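import Mathlib
import Fermat.Prelude.Def_AlgebraicCurve_DivisorPushPull
import Fermat.Agent.S18.Spec
import Fermat.Agent.S18.H876.Kummer

/-!
# S18 / d2 : transfer of CORE from level `M` to level `N ∣ M`

`core_descend_of_coprime` :
  `N ∣ M`, `[F_M : F_N]` finite and prime to `m`  ⟹  `CoreStatement M A m → CoreStatement N A m`.

Ingredients: restriction of places along `F_N ⊆ F_M` (Prelude `Place.restrict`,
`ord_w = e · ord_v`) and Kummer descent (`H876.exists_algebraMap_eq_of_pow_eq`).
-/

set_option autoImplicit false

noncomputable section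

namespace Fermat.Agent.S18.H876

open ModularCurve AlgebraicCurve HahnSeries

/-! ### Abstract part -/

/-- Divisibility of order differences passes from a field to an integral extension. -/
theorem dvd_ord_sub_algebraMap {K E F : Type*} [Field K] [Field E] [Field F]
    [Algebra K E] [Algebra K F] [Algebra E F] [IsScalarTower K E F] [Algebra.IsIntegral E F]
    (m : ℤ) (f g : E) (h : ∀ v : Place K E, m ∣ v.ord f - v.ord g) (w : Place K F) :
    m ∣ w.ord (algebraMap E F f) - w.ord (algebraMap E F g) := by
  rw [w.ord_restrict f, w.ord_restrict g, ← mul_sub]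
  exact Dvd.dvd.mul_left (h (w.restrict E)) _

/-! ### The tower `F_N ⊆ F_M` -/

section Tower

variable {N M : ℕ} [NeZero N] [NeZero M]

theorem bar_le_bar (h : N ∣ M) : modularFunctionFieldBar N ≤ modularFunctionFieldBar M :=
  IntermediateField.adjoin.mono _ _ _ (Set.image_mono (full_degeneracy_le h))

/-- The inclusion `F_N → F_M`. -/
def barIncl (h : N ∣ M) : modularFunctionFieldBar N →ₐ[Qb] modularFunctionFieldBar M :=
  IntermediateField.inclusion (bar_le_bar h)

@[simp] theorem coe_barIncl (h : N ∣ M) (x : modularFunctionFieldBar N) :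
    ((barIncl h x : modularFunctionFieldBar M) : LaurentSeries Qb) = x :=
  IntermediateField.coe_inclusion _ _

theorem barIncl_injective (h : N ∣ M) : Function.Injective (barIncl h) :=
  (barIncl h).toRingHom.injective

/-- The algebra structure `F_N → F_M` given by the inclusion. -/
@[reducible] def barAlgebra (h : N ∣ M) :
    Algebra (modularFunctionFieldBar N) (modularFunctionFieldBar M) :=
  (barIncl h).toRingHom.toAlgebra

theorem barAlgebra_isScalarTower (h : N ∣ M) :
    @IsScalarTower Qb (modularFunctionFieldBar N) (modularFunctionFieldBar M) _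
      (barAlgebra h).toSMul _ := by
  letI := barAlgebra h
  refine IsScalarTower.of_algebraMap_eq fun c => ?_
  exact ((barIncl h).commutes c).symm

theorem isInt_of_dvd (h : N ∣ M) {A : ValuationSubring Qb} {U : LaurentSeries A}
    (hU : IsInt A N U) : IsInt A M U :=
  ⟨bar_le_bar h hU.1, full_degeneracyC_le _ h hU.2.1, hU.2.2⟩

omit [NeZero N] in
theorem coe_toF {A : ValuationSubring Qb} {U : LaurentSeries A} (hU : IsInt A N U) :
    ((toF hU : modularFunctionFieldBar N) : LaurentSeries Qb) = coeffMap A.subtype U := rfl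

theorem toF_isInt_of_dvd (h : N ∣ M) {A : ValuationSubring Qb} {U : LaurentSeries A}
    (hU : IsInt A N U) :
    toF (isInt_of_dvd h hU) = barIncl h (toF hU) := by
  apply Subtype.ext
  rw [coe_toF, coe_barIncl, coe_toF]

omit [NeZero N] in
theorem toF_ne_zero {A : ValuationSubring Qb} {U : LaurentSeries A}
    (hU : IsInt A N U) : toF hU ≠ 0 := by
  intro h0
  have h1 : coeffMap A.subtype U = 0 := by
    rw [← coe_toF hU, h0]
    rfl
  have hU0 : U = 0 := by
    ext n
    have h2 := congrArg (fun s => HahnSeries.coeff s n) h1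
    simpa using h2
  exact hU.2.2 (by rw [hU0, map_zero])

end Tower

/-! ### The transfer -/

/-- **d2 (degree as hypothesis).** -/
theorem core_descend_of_coprime {N M : ℕ} [NeZero N] [NeZero M] (h : N ∣ M)
    (A : ValuationSubring Qb) (m : ℕ)
    (hfin : @Module.Finite (modularFunctionFieldBar N) (modularFunctionFieldBar M) _ _
      (barAlgebra h).toModule)
    (hcop : (@Module.finrank (modularFunctionFieldBar N) (modularFunctionFieldBar M) _ _
      (barAlgebra h).toModule).Coprime m)
    (hM : CoreStatement M A m) : CoreStatement N A m := by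
  letI := barAlgebra h
  haveI := barAlgebra_isScalarTower h
  haveI : FiniteDimensional (modularFunctionFieldBar N) (modularFunctionFieldBar M) := hfin
  haveI : Algebra.IsIntegral (modularFunctionFieldBar N) (modularFunctionFieldBar M) :=
    Algebra.IsIntegral.of_finite _ _
  have halg : ∀ x : modularFunctionFieldBar N,
      algebraMap (modularFunctionFieldBar N) (modularFunctionFieldBar M) x = barIncl h x :=
    fun _ => rfl
  intro U₁ U₂ h₁ h₂ hred hdiv
  obtain ⟨c, y, hc, hy, hcy⟩ := hM U₁ U₂ (isInt_of_dvd h h₁) (isInt_of_dvd h h₂) hred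
    (fun w => by
      rw [toF_isInt_of_dvd h h₁, toF_isInt_of_dvd h h₂, ← halg, ← halg]
      exact dvd_ord_sub_algebraMap (m : ℤ) (toF h₁) (toF h₂) hdiv w)
  rw [toF_isInt_of_dvd h h₁, toF_isInt_of_dvd h h₂] at hcy
  have hinj := barIncl_injective h
  have h₂0 : toF h₂ ≠ 0 := toF_ne_zero h₂
  have hc' : algebraMap Qb (modularFunctionFieldBar N) c ≠ 0 := by
    simpa using hc
  rcases Nat.eq_zero_or_pos m with hm0 | hmpos
  · subst hm0
    refine ⟨c, 1, hc, one_ne_zero, ?_⟩
    apply hinj
    rw [hcy, pow_zero, pow_zero, mul_one, mul_one, map_mul, AlgHom.commutes]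
  · -- `y ^ m` comes from `F_N`
    have hym : y ^ m = algebraMap (modularFunctionFieldBar N) (modularFunctionFieldBar M)
        (toF h₁ / (algebraMap Qb (modularFunctionFieldBar N) c * toF h₂)) := by
      rw [halg, map_div₀, map_mul, AlgHom.commutes, hcy]
      have h₂0' : barIncl h (toF h₂) ≠ 0 := fun h0 => h₂0 (hinj (by rw [h0, map_zero]))
      have hc'' : algebraMap Qb (modularFunctionFieldBar M) c ≠ 0 := by simpa using hc
      field_simp
    obtain ⟨x, hx⟩ := exists_algebraMap_eq_of_pow_eq (K := Qb) m hmpos hcop y _ hym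
    rw [halg] at hx
    refine ⟨c, x, hc, ?_, ?_⟩
    · rintro rfl
      exact hy (by rw [← hx, map_zero])
    · apply hinj
      rw [hcy, map_mul, map_mul, map_pow, hx, AlgHom.commutes]

end Fermat.Agent.S18.H876
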