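import Fermat.Agent.S24.Mod
import Fermat.Agent.S24.Count
import Fermat.Agent.S20.Comb694.Index
import Fermat.Agent.S18.H876.Transfer

/-!
# S18 / d2 : the degree `[F_M : F_N] = ψ(M) / ψ(N)` and the hypothesis-free transfer

* `psi_mul_finrank : ψ(N) * [F_M : F_N] = ψ(M)` for `N ∣ M` (from landed S24:
  `ModularPackage.finrank_eq`, `card_XX`).
* `core_descend_prime` : `p` prime, `p ∤ N`, `gcd(p + 1, m) = 1`
    ⟹ `CoreStatement (p * N) A m → CoreStatement N A m`.
* `node_d2` : the node D2 of the row skeleton, for `levelM N ℓ`.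
-/

set_option autoImplicit false

noncomputable section

namespace Fermat.Agent.S18.H876

open ModularCurve AlgebraicCurve HahnSeries Fermat.Agent.S24

section Degree

variable {N M : ℕ} [NeZero N] [NeZero M]

theorem coe_jF' : ((jF N : FF N) : LaurentSeries Qb) = coeffEmb Qb jq := rfl

theorem barIncl_jF (h : N ∣ M) : barIncl h (jF N) = jF M := by
  apply Subtype.ext
  rw [coe_barIncl, coe_jF', coe_jF']

/-- `Q̄(j) ⊆ F_N`. -/
abbrev jSub (N : ℕ) [NeZero N] : IntermediateField Kbar (FF N) :=
  IntermediateField.adjoin Kbar {jF N}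

theorem jSub_map (h : N ∣ M) : (jSub N).map (barIncl h) = jSub M := by
  rw [jSub, IntermediateField.adjoin_map, Set.image_singleton, barIncl_jF]

set_option synthInstance.maxHeartbeats 400000 in
/-- The isomorphism `Q̄(j) ⊆ F_N` with `Q̄(j) ⊆ F_M`. -/
def jSubEquiv (h : N ∣ M) : jSub N ≃ₐ[Kbar] jSub M :=
  ((jSub N).equivMap (barIncl h)).trans (IntermediateField.equivOfEq (jSub_map h))

set_option synthInstance.maxHeartbeats 400000 in
theorem coe_jSubEquiv (h : N ∣ M) (a : jSub N) :
    ((jSubEquiv h a : jSub M) : FF M) = barIncl h (a : FF N) := by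
  rw [jSubEquiv, AlgEquiv.trans_apply, IntermediateField.equivOfEq_apply]
  exact IntermediateField.coe_equivMap_apply _ _ _

set_option synthInstance.maxHeartbeats 400000 in
/-- `ψ(N) · [F_M : F_N] = ψ(M)`. -/
theorem psi_mul_finrank (h : N ∣ M) :
    dedekindPsi N * @Module.finrank (FF N) (FF M) _ _ (barAlgebra h).toModule
      = dedekindPsi M := by
  obtain ⟨PN⟩ := nonempty_modularPackage N
  obtain ⟨PM⟩ := nonempty_modularPackage M
  letI := barAlgebra h
  letI algJ : Algebra (jSub N) (FF M) :=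
    ((algebraMap (FF N) (FF M)).comp (algebraMap (jSub N) (FF N))).toAlgebra
  haveI : IsScalarTower (jSub N) (FF N) (FF M) :=
    IsScalarTower.of_algebraMap_eq fun _ => rfl
  have h1 : Module.finrank (jSub N) (FF N) = dedekindPsi N := by
    rw [← card_XX N]; exact PN.finrank_eq
  have h2 : Module.finrank (jSub M) (FF M) = dedekindPsi M := by
    rw [← card_XX M]; exact PM.finrank_eq
  have h3 : Module.finrank (jSub N) (FF M) = Module.finrank (jSub M) (FF M) := by
    refine Algebra.finrank_eq_of_equiv_equiv (jSubEquiv h).toRingEquiv (RingEquiv.refl (FF M)) ?_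
    refine RingHom.ext fun a => ?_
    exact coe_jSubEquiv h a
  haveI : Module.Free (jSub N) (FF N) := Module.Free.of_divisionRing _ _
  haveI : Module.Free (FF N) (FF M) := Module.Free.of_divisionRing _ _
  rw [← h1, ← h2, ← h3]
  exact Module.finrank_mul_finrank (jSub N) (FF N) (FF M)

theorem dedekindPsi_pos' (n : ℕ) (hn : n ≠ 0) : 0 < dedekindPsi n := by
  unfold dedekindPsi
  have h1 : (1 : ℕ) ∈ n.divisors.filter Squarefree :=
    Finset.mem_filter.2 ⟨Nat.one_mem_divisors.2 hn, squarefree_one⟩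
  calc 0 < n / 1 := by rw [Nat.div_one]; exact Nat.pos_of_ne_zero hn
    _ ≤ ∑ d ∈ n.divisors.filter Squarefree, n / d :=
        Finset.single_le_sum (f := fun d => n / d) (fun _ _ => Nat.zero_le _) h1

set_option synthInstance.maxHeartbeats 400000 in
theorem finrank_bar_pos (h : N ∣ M) :
    0 < @Module.finrank (FF N) (FF M) _ _ (barAlgebra h).toModule := by
  have h1 := psi_mul_finrank h
  have h2 := dedekindPsi_pos' M (NeZero.ne M)
  rcases Nat.eq_zero_or_pos (@Module.finrank (FF N) (FF M) _ _ (barAlgebra h).toModule)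
    with h0 | hpos
  · rw [h0, mul_zero] at h1
    omega
  · exact hpos

set_option synthInstance.maxHeartbeats 400000 in
theorem finite_bar (h : N ∣ M) :
    @Module.Finite (FF N) (FF M) _ _ (barAlgebra h).toModule := by
  letI := barAlgebra h
  haveI : Module.Free (FF N) (FF M) := Module.Free.of_divisionRing _ _
  exact Module.finite_of_finrank_pos (finrank_bar_pos h)

end Degree

/-! ### Hypothesis-free transfer -/

/-- **d2, general form**: `N ∣ M` and `ψ(M) = d · ψ(N)` with `gcd(d, m) = 1`. -/
theorem core_descend_of_psi {N M : ℕ} [NeZero N] [NeZero M] (h : N ∣ M)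
    (A : ValuationSubring Qb) (m d : ℕ) (hd : dedekindPsi M = d * dedekindPsi N)
    (hcop : d.Coprime m) (hM : CoreStatement M A m) : CoreStatement N A m := by
  refine core_descend_of_coprime h A m (finite_bar h) ?_ hM
  have h1 := psi_mul_finrank h
  have h2 := dedekindPsi_pos' N (NeZero.ne N)
  have h3 : @Module.finrank (FF N) (FF M) _ _ (barAlgebra h).toModule = d := by
    rw [hd, mul_comm] at h1
    exact Nat.eq_of_mul_eq_mul_right h2 h1
  rw [show @Module.finrank (modularFunctionFieldBar N) (modularFunctionFieldBar M) _ _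
    (barAlgebra h).toModule = d from h3]
  exact hcop

/-- **d2, prime form**: `p ∤ N` prime, `gcd(p + 1, m) = 1`. -/
theorem core_descend_prime {N : ℕ} [NeZero N] (p : ℕ) (hp : p.Prime) (hpN : ¬ p ∣ N)
    (A : ValuationSubring Qb) (m : ℕ) (hcop : (p + 1).Coprime m)
    (hM : CoreStatement (p * N) A m) : CoreStatement N A m := by
  haveI : NeZero (p * N) := ⟨mul_ne_zero hp.ne_zero (NeZero.ne N)⟩
  exact core_descend_of_psi (Dvd.intro_left p rfl) A m (p + 1)
    (Fermat.Agent.S20.Comb694.dedekindPsi_prime_mul_of_not_dvd p N hp (NeZero.ne N) hpN) hcop hM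

/-- **NODE D2** of the row skeleton (`levelM N ℓ` unfolded). -/
theorem node_d2 (N : ℕ) [NeZero N] {ℓ : ℕ} [Fact ℓ.Prime] (_hℓN : ¬ ℓ ∣ N)
    (A : ValuationSubring Qb) (m : ℕ) (hm : ¬ ℓ ∣ m) :
    CoreStatement (if ℓ = 3 then Nat.lcm N 2 else if ℓ = 2 then Nat.lcm N 3 else N) A m →
      CoreStatement N A m := by
  split_ifs with h3 h2
  · subst h3
    by_cases h : 2 ∣ N
    · rw [Nat.lcm_eq_left h]
      exact id
    · have hcop : Nat.Coprime N 2 :=
        (Nat.coprime_comm.1 ((Nat.Prime.coprime_iff_not_dvd Nat.prime_two).2 h))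
      rw [hcop.lcm_eq_mul, mul_comm]
      refine core_descend_prime 2 Nat.prime_two h A m ?_
      exact (Nat.Prime.coprime_iff_not_dvd Nat.prime_three).2 hm
  · subst h2
    by_cases h : 3 ∣ N
    · rw [Nat.lcm_eq_left h]
      exact id
    · have hcop : Nat.Coprime N 3 :=
        (Nat.coprime_comm.1 ((Nat.Prime.coprime_iff_not_dvd Nat.prime_three).2 h))
      rw [hcop.lcm_eq_mul, mul_comm]
      refine core_descend_prime 3 Nat.prime_three h A m ?_
      have h2m : Nat.Coprime 2 m := (Nat.Prime.coprime_iff_not_dvd Nat.prime_two).2 hm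
      exact Nat.Coprime.pow_left 2 h2m
  · exact id

end Fermat.Agent.S18.H876
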